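import Mathlib

/-!
# S25 helper (helper445), block AFF, leaf F1 — algebra part

`Module.Invertible` is local for the Zariski topology: if `s ⊆ R` spans the unit ideal and the
localization `N[1/r]` is an invertible `R[1/r]`-module for all `r ∈ s`, then `N` is an invertible
`R`-module (`invertible_of_localizationSpan`).  Mathlib only.
-/

set_option autoImplicit false

open TensorProduct

namespace Fermat.Agent.S25.H445

section LocFree

variable {R : Type*} [CommRing R] {N : Type*} [AddCommGroup N] [Module R N]

/-- the evaluation pairing `Dual A N' ⊗[R] N' → A` (tensor product over the smaller ring). -/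
noncomputable def evalPairing (A : Type*) [CommRing A] [Algebra R A] (N' : Type*) [AddCommGroup N']
    [Module R N'] [Module A N'] [IsScalarTower R A N'] :
    Module.Dual A N' ⊗[R] N' →ₗ[R] A :=
  TensorProduct.lift
    { toFun := fun φ => (φ.restrictScalars R)
      map_add' := fun φ ψ => by ext; simp
      map_smul' := fun c φ => by ext; simp }

@[simp]
theorem evalPairing_tmul (A : Type*) [CommRing A] [Algebra R A] (N' : Type*) [AddCommGroup N']
    [Module R N'] [Module A N'] [IsScalarTower R A N'] (φ : Module.Dual A N') (n : N') :
    evalPairing (R := R) A N' (φ ⊗ₜ n) = φ n := by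
  simp [evalPairing]

theorem evalPairing_bijective (S : Submonoid R) (A : Type*) [CommRing A] [Algebra R A]
    [IsLocalization S A] (N' : Type*) [AddCommGroup N']
    [Module R N'] [Module A N'] [IsScalarTower R A N'] [Module.Invertible A N'] :
    Function.Bijective (evalPairing (R := R) A N') := by
  have h1 : Function.Bijective (contractLeft A N') := Module.Invertible.bijective
  have h2 : ∀ x, evalPairing (R := R) A N'
      (IsLocalization.moduleTensorEquiv S A (Module.Dual A N') N' x) = contractLeft A N' x := by
    intro x
    induction x using TensorProduct.induction_on with
    | zero => simp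
    | tmul φ n =>
      change evalPairing (R := R) A N' (φ ⊗ₜ[R] n) = φ n
      simp
    | add x y hx hy => simp [hx, hy]
  have h3 : (evalPairing (R := R) A N' : _ → A) =
      (contractLeft A N') ∘ (IsLocalization.moduleTensorEquiv S A (Module.Dual A N') N').symm := by
    funext y
    obtain ⟨x, rfl⟩ := (IsLocalization.moduleTensorEquiv S A (Module.Dual A N') N').surjective y
    simp [h2]
  rw [h3]
  exact h1.comp (IsLocalization.moduleTensorEquiv S A (Module.Dual A N') N').symm.bijective

/-- **Invertibility is local**: a module all of whose localizations at the elements of a
set spanning the unit ideal are invertible is invertible. -/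
theorem invertible_of_localizationSpan (s : Set R) (hs : Ideal.span s = ⊤)
    (h : ∀ r : s, Module.Invertible (Localization.Away r.1) (LocalizedModule.Away r.1 N)) :
    Module.Invertible R N := by
  have hfp : Module.FinitePresentation R N :=
    Module.FinitePresentation.of_localizationSpan s hs (fun r => by
      have := h r
      exact Module.finitePresentation_of_projective _ _)
  refine ⟨bijective_of_isLocalized_span s hs
    (fun r => Module.Dual (Localization.Away r.1) (LocalizedModule.Away r.1 N) ⊗[R]
      LocalizedModule.Away r.1 N)
    (fun r => TensorProduct.map
      (IsLocalizedModule.mapExtendScalars (.powers r.1)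
        (LocalizedModule.mkLinearMap (.powers r.1) N)
        (Algebra.linearMap R (Localization.Away r.1)) (Localization.Away r.1))
      (LocalizedModule.mkLinearMap (.powers r.1) N))
    (fun r => Localization.Away r.1) (fun r => Algebra.linearMap R _) (contractLeft R N) ?_⟩
  intro r
  have := h r
  have key : IsLocalizedModule.map (.powers r.1) (TensorProduct.map
      (IsLocalizedModule.mapExtendScalars (.powers r.1)
        (LocalizedModule.mkLinearMap (.powers r.1) N)
        (Algebra.linearMap R (Localization.Away r.1)) (Localization.Away r.1))
      (LocalizedModule.mkLinearMap (.powers r.1) N)) (Algebra.linearMap R (Localization.Away r.1))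
      (contractLeft R N) = evalPairing (Localization.Away r.1) (LocalizedModule.Away r.1 N) := by
    apply IsLocalizedModule.linearMap_ext (.powers r.1) (TensorProduct.map
      (IsLocalizedModule.mapExtendScalars (.powers r.1)
        (LocalizedModule.mkLinearMap (.powers r.1) N)
        (Algebra.linearMap R (Localization.Away r.1)) (Localization.Away r.1))
      (LocalizedModule.mkLinearMap (.powers r.1) N)) (Algebra.linearMap R (Localization.Away r.1))
    rw [IsLocalizedModule.map_comp]
    ext φ n
    simp only [TensorProduct.AlgebraTensorModule.curry_apply, LinearMap.restrictScalars_self,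
      TensorProduct.curry_apply, LinearMap.coe_comp, Function.comp_apply, TensorProduct.map_tmul,
      evalPairing_tmul, IsLocalizedModule.mapExtendScalars_apply_apply,
      IsLocalizedModule.map_apply, contractLeft_apply, Algebra.linearMap_apply]
  rw [key]
  exact evalPairing_bijective (.powers r.1) _ _

/-- variant: it suffices to have, around every prime, an element `f` outside the prime such that
`N[1/f]` is free of rank one. -/
theorem invertible_of_forall_exists_away (h : ∀ p : PrimeSpectrum R, ∃ f : R,
      f ∉ p.asIdeal ∧ Nonempty (LocalizedModule.Away f N ≃ₗ[Localization.Away f]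
        Localization.Away f)) :
    Module.Invertible R N := by
  choose f hf e using h
  have hs : Ideal.span (Set.range f) = ⊤ := by
    by_contra hne
    obtain ⟨m, hm, hle⟩ := Ideal.exists_le_maximal _ hne
    exact hf ⟨m, hm.isPrime⟩ (hle (Ideal.subset_span ⟨_, rfl⟩))
  refine invertible_of_localizationSpan (Set.range f) hs ?_
  rintro ⟨_, p, rfl⟩
  exact Module.Invertible.congr (e p).some.symm

end LocFree

end Fermat.Agent.S25.H445
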