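import Mathlib
import Fermat.Prelude.Def_AlgebraicGeometry_RelativePicardFunctor
import Fermat.Agent.S25.H445.LocalInvertible

/-!
# S25 helper (helper445), block AFF, leaf F1: invertible sheaves on `Spec R`

* `isQuasicoherent_of_isInvertible` : on any scheme, an invertible module (Prelude
  `Scheme.Modules.IsInvertible`) is quasi-coherent.
* `isIso_fromTildeΓ_of_isInvertible`, `isoTildeΓ` : on `Spec R`, `M ≅ tilde Γ(M, ⊤)`.
* `invertible_Γ_of_isInvertible` : `Γ(M, ⊤)` is an invertible `R`-module.
* `isInvertible_tilde` : `tilde N` is invertible for an invertible `R`-module `N`.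
* `isInvertible_iff_exists_tilde` : summary.
-/

set_option autoImplicit false

universe u

open CategoryTheory AlgebraicGeometry TopologicalSpace Opposite TensorProduct

namespace Fermat.Agent.S25.H445

noncomputable section

/-! ### invertible ⇒ quasi-coherent -/

/-- The unit sheaf of modules is the free sheaf on one generator. -/
def unitIsoFreePUnit {C : Type*} [Category C] {J : GrothendieckTopology C}
    (R : Sheaf J RingCat.{u}) [HasWeakSheafify J AddCommGrpCat.{u}]
    [J.WEqualsLocallyBijective AddCommGrpCat.{u}] :
    SheafOfModules.unit R ≅ SheafOfModules.free (R := R) PUnit.{u+1} :=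
  (Limits.coproductUniqueIso (fun _ : PUnit.{u+1} => SheafOfModules.unit R)).symm

/-- a module whose restriction to an open `U` (as a scheme) is trivial has quasi-coherent
`over U`. -/
theorem isQuasicoherent_over_of_restrict_iso_unit {X : Scheme.{u}} (M : X.Modules) (U : X.Opens)
    (e : (Scheme.Modules.restrictFunctor U.ι).obj M ≅
      SheafOfModules.unit (U : Scheme.{u}).ringCatSheaf) :
    SheafOfModules.IsQuasicoherent.{u} (M.over U) := by
  have e1 : (Scheme.Modules.overEquiv U).functor.obj (M.over U) ≅
      (Scheme.Modules.overEquiv U).functor.obj (SheafOfModules.unit (X.ringCatSheaf.over U)) :=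
    (Scheme.Modules.overFunctorEquiv U).app M ≪≫ e ≪≫
      (TopologicalSpace.Opens.sheafOfModulesEquivOverUnit U X.ringCatSheaf).symm
  have e2 : M.over U ≅ SheafOfModules.unit (X.ringCatSheaf.over U) :=
    (Scheme.Modules.overEquiv U).fullyFaithfulFunctor.preimageIso e1
  have hfree : SheafOfModules.IsQuasicoherent.{u}
      (SheafOfModules.free (R := X.ringCatSheaf.over U) PUnit.{u+1}) := inferInstance
  exact (SheafOfModules.isQuasicoherent.{u} (X.ringCatSheaf.over U)).prop_of_iso
    (e2 ≪≫ unitIsoFreePUnit _).symm hfree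

/-- **An invertible module is quasi-coherent** (any scheme). -/
theorem isQuasicoherent_of_isInvertible {X : Scheme.{u}} {M : X.Modules}
    (h : Scheme.Modules.IsInvertible M) : M.IsQuasicoherent := by
  choose U hxU e using h.exists_trivialization
  have hcov : (Opens.grothendieckTopology X).CoversTop U := by
    rw [Opens.coversTop_iff]
    exact top_le_iff.mp fun x _ => Opens.mem_iSup.mpr ⟨x, hxU x⟩
  have : ∀ x, SheafOfModules.IsQuasicoherent.{u} (M.over (U x)) := fun x =>
    isQuasicoherent_over_of_restrict_iso_unit M (U x)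
      ((Scheme.Modules.restrictFunctorIsoPullback (U x).ι).app M ≪≫ (e x).some)
  exact SheafOfModules.IsQuasicoherent.of_coversTop M U hcov

/-! ### pullback of `tilde` -/

section Pullback

variable {R S : CommRingCat.{u}} (φ : R ⟶ S)

/-- Global sections commute with pushforward along `Spec.map φ`, up to restriction of
scalars. -/
def pushforwardΓNatIso :
    Scheme.Modules.pushforward (Spec.map φ) ⋙ moduleSpecΓFunctor (R := R) ≅
      moduleSpecΓFunctor (R := S) ⋙ ModuleCat.restrictScalars φ.hom :=
  Functor.isoWhiskerRight (pushforwardCompModulesSpecToSheafIso φ)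
    (TopCat.Sheaf.forget _ _ ⋙ (evaluation _ _).obj (.op ⊤)) ≪≫
    NatIso.ofComponents (fun _ => Iso.refl _) (fun _ =>
      (Category.comp_id _).trans (Category.id_comp _).symm)

/-- pullback of `tilde` along `Spec.map φ` is `tilde` of the base change (uniqueness of left
adjoints). -/
def tildePullbackNatIso :
    tilde.functor R ⋙ Scheme.Modules.pullback (Spec.map φ) ≅
      ModuleCat.extendScalars φ.hom ⋙ tilde.functor S :=
  (((tilde.adjunction (R := R)).comp
    (Scheme.Modules.pullbackPushforwardAdjunction (Spec.map φ))).ofNatIsoRight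
      (pushforwardΓNatIso φ)).leftAdjointUniq
    ((ModuleCat.extendRestrictScalarsAdj φ.hom).comp (tilde.adjunction (R := S)))

/-- objectwise form. -/
def pullbackTildeObjIso (N : ModuleCat.{u} R) :
    (Scheme.Modules.pullback (Spec.map φ)).obj (tilde N) ≅
      tilde ((ModuleCat.extendScalars φ.hom).obj N) :=
  (tildePullbackNatIso φ).app N

end Pullback

/-! ### extension of scalars versus localization -/

section Bridge

variable {R : Type u} [CommRing R] {A : Type u} [CommRing A]

set_option backward.isDefEq.respectTransparency false in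
/-- The carrier of `ModuleCat.extendScalars g` is the usual base change (for the algebra
structure `g.toAlgebra`). -/
def extendScalarsEquivTensorAux (g : R →+* A) (N : ModuleCat.{u} R) :
    letI := g.toAlgebra
    ((ModuleCat.extendScalars g).obj N) ≃ₗ[A] A ⊗[R] N :=
  letI := g.toAlgebra
  LinearEquiv.refl A _

theorem toAlgebra_algebraMap_eq [inst : Algebra R A] : (algebraMap R A).toAlgebra = inst :=
  Algebra.algebra_ext _ _ (fun _ => rfl)

/-- auxiliary form with a variable algebra structure. -/
def extendScalarsEquivTensorAux' (g : R →+* A) (alg : Algebra R A) (halg : g.toAlgebra = alg)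
    (N : ModuleCat.{u} R) :
    ((ModuleCat.extendScalars g).obj N) ≃ₗ[A] A ⊗[R] N := by
  subst halg
  exact extendScalarsEquivTensorAux g N

/-- The carrier of `ModuleCat.extendScalars (algebraMap R A)` is the usual base change. -/
def extendScalarsEquivTensor [Algebra R A] (N : ModuleCat.{u} R) :
    ((ModuleCat.extendScalars (algebraMap R A)).obj N) ≃ₗ[A] A ⊗[R] N :=
  extendScalarsEquivTensorAux' (algebraMap R A) _ toAlgebra_algebraMap_eq N

/-- extension of scalars to `R[1/f]` is the localized module. -/
def extendScalarsEquivLocalizedModule (f : R) (N : ModuleCat.{u} R) :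
    ((ModuleCat.extendScalars (algebraMap R (Localization.Away f))).obj N) ≃ₗ[Localization.Away f]
      LocalizedModule.Away f N :=
  extendScalarsEquivTensor N ≪≫ₗ (LocalizedModule.equivTensorProduct (.powers f) N).symm

end Bridge

/-! ### invertible modules on `Spec R` -/

section Affine

variable {R : CommRingCat.{u}}

/-- The localization map `R ⟶ R[1/f]` in `CommRingCat`. -/
abbrev awayHom (f : R) : R ⟶ CommRingCat.of (Localization.Away f) :=
  CommRingCat.ofHom (algebraMap R (Localization.Away f))

set_option backward.isDefEq.respectTransparency false in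
/-- an invertible module on `Spec R` becomes trivial on `Spec R[1/f]` for a suitable `f`
not vanishing at a given point. -/
theorem exists_pullback_awayHom_iso_unit {M : (Spec R).Modules}
    (h : Scheme.Modules.IsInvertible M) (x : Spec R) :
    ∃ f : R, x ∈ PrimeSpectrum.basicOpen f ∧
      Nonempty ((Scheme.Modules.pullback (Spec.map (awayHom f))).obj M ≅
        SheafOfModules.unit (Spec (CommRingCat.of (Localization.Away f))).ringCatSheaf) := by
  obtain ⟨U, hxU, ⟨e⟩⟩ := h.exists_trivialization x
  obtain ⟨_, ⟨_, ⟨f, rfl⟩, rfl⟩, hxf, hfU⟩ :=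
    PrimeSpectrum.isBasis_basic_opens.exists_subset_of_mem_open hxU U.2
  refine ⟨f, hxf, ⟨?_⟩⟩
  have hfU' : (PrimeSpectrum.basicOpen f : (Spec R).Opens) ≤ U := hfU
  let j : Spec (CommRingCat.of (Localization.Away f)) ⟶ U.toScheme :=
    (basicOpenIsoSpecAway f).inv ≫ (Spec R).homOfLE hfU'
  have hj : j ≫ U.ι = Spec.map (awayHom f) := by
    simp [j, basicOpenIsoSpecAway]
  exact (Scheme.Modules.pullbackCongr hj.symm).app M ≪≫
    ((Scheme.Modules.pullbackComp j U.ι).app M).symm ≪≫
    (Scheme.Modules.pullback j).mapIso e ≪≫ Scheme.Modules.pullbackUnitIso j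

/-- **F1 (b1)**: an invertible module on `Spec R` is `tilde` of its global sections. -/
theorem isIso_fromTildeΓ_of_isInvertible {M : (Spec R).Modules}
    (h : Scheme.Modules.IsInvertible M) : IsIso M.fromTildeΓ := by
  have hq := isQuasicoherent_of_isInvertible h
  exact @Scheme.Modules.isIso_fromTildeΓ_of_isQuasicoherent R M hq

/-- the isomorphism `tilde Γ(M, ⊤) ≅ M` for an invertible module on `Spec R`. -/
def isoTildeΓ {M : (Spec R).Modules} (h : Scheme.Modules.IsInvertible M) :
    tilde ((moduleSpecΓFunctor (R := R)).obj M) ≅ M :=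
  @asIso _ _ _ _ M.fromTildeΓ (isIso_fromTildeΓ_of_isInvertible h)

/-- if `tilde N` is invertible, so is `N`. -/
theorem invertible_of_isInvertible_tilde (N : ModuleCat.{u} R)
    (h : Scheme.Modules.IsInvertible (tilde N)) : Module.Invertible R N := by
  refine invertible_of_forall_exists_away fun p => ?_
  obtain ⟨f, hpf, ⟨e⟩⟩ := exists_pullback_awayHom_iso_unit h p
  refine ⟨f, hpf, ⟨?_⟩⟩
  have e1 : (tilde.functor (CommRingCat.of (Localization.Away f))).obj
        ((ModuleCat.extendScalars (awayHom f).hom).obj N) ≅
      (tilde.functor (CommRingCat.of (Localization.Away f))).obj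
        (ModuleCat.of (Localization.Away f) (Localization.Away f)) :=
    (pullbackTildeObjIso (awayHom f) N).symm ≪≫ e ≪≫ tildeSelf.symm
  have e2 : (ModuleCat.extendScalars (awayHom f).hom).obj N ≅
      ModuleCat.of (Localization.Away f) (Localization.Away f) :=
    tilde.fullyFaithfulFunctor.preimageIso e1
  exact (extendScalarsEquivLocalizedModule f N).symm ≪≫ₗ e2.toLinearEquiv

/-- **F1 (b2)**: the global sections of an invertible module on `Spec R` form an invertible
`R`-module. -/
theorem invertible_Γ_of_isInvertible {M : (Spec R).Modules}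
    (h : Scheme.Modules.IsInvertible M) :
    Module.Invertible R ((moduleSpecΓFunctor (R := R)).obj M) := by
  apply invertible_of_isInvertible_tilde
  refine ⟨fun x => ?_⟩
  obtain ⟨U, hxU, ⟨e⟩⟩ := h.exists_trivialization x
  exact ⟨U, hxU, ⟨(Scheme.Modules.pullback U.ι).mapIso (isoTildeΓ h) ≪≫ e⟩⟩

set_option backward.isDefEq.respectTransparency false in
/-- **F1 (a)**: `tilde` of an invertible module is an invertible sheaf. -/
theorem isInvertible_tilde (N : ModuleCat.{u} R) [Module.Invertible R N] :
    Scheme.Modules.IsInvertible (tilde N) := by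
  refine ⟨fun x => ?_⟩
  obtain ⟨s, hs, hfree⟩ := Module.Invertible.exists_finset_free_localization R N
  obtain ⟨f, hfs, hfx⟩ : ∃ f ∈ s, f ∉ (x : PrimeSpectrum R).asIdeal := by
    by_contra hcon
    have : Ideal.span (s : Set R) ≤ (x : PrimeSpectrum R).asIdeal :=
      Ideal.span_le.mpr fun f hf => by
        by_contra hf'
        exact hcon ⟨f, hf, hf'⟩
    rw [hs] at this
    exact (x : PrimeSpectrum R).isPrime.ne_top (top_le_iff.mp this)
  have := hfree f hfs
  obtain ⟨e⟩ := (Module.Invertible.free_iff_linearEquiv
    (R := Localization.Away f) (M := LocalizedModule.Away f N)).mp this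
  let U : (Spec R).Opens := PrimeSpectrum.basicOpen f
  refine ⟨U, hfx, ⟨?_⟩⟩
  have e2 : (ModuleCat.extendScalars (awayHom f).hom).obj N ≅
      ModuleCat.of (Localization.Away f) (Localization.Away f) :=
    (extendScalarsEquivLocalizedModule f N ≪≫ₗ e).toModuleIso
  have hU : (basicOpenIsoSpecAway f).hom ≫ Spec.map (awayHom f) = U.ι :=
    basicOpenIsoSpecAway_hom_SpecMap f
  exact (Scheme.Modules.pullbackCongr hU.symm).app (tilde N) ≪≫
    ((Scheme.Modules.pullbackComp (basicOpenIsoSpecAway f).hom
      (Spec.map (awayHom f))).app (tilde N)).symm ≪≫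
    (Scheme.Modules.pullback (basicOpenIsoSpecAway f).hom).mapIso
      (pullbackTildeObjIso (awayHom f) N ≪≫ (tilde.functor _).mapIso e2 ≪≫ tildeSelf) ≪≫
    Scheme.Modules.pullbackUnitIso (basicOpenIsoSpecAway f).hom

/-- **F1, summary**: a module on `Spec R` is invertible iff it is isomorphic to `tilde N` for an
invertible `R`-module `N`. -/
theorem isInvertible_iff_exists_tilde (M : (Spec R).Modules) :
    Scheme.Modules.IsInvertible M ↔
      ∃ (N : ModuleCat.{u} R) (_ : Module.Invertible R N), Nonempty (tilde N ≅ M) := by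
  constructor
  · intro h
    exact ⟨_, invertible_Γ_of_isInvertible h, ⟨isoTildeΓ h⟩⟩
  · rintro ⟨N, hN, ⟨e⟩⟩
    have h := isInvertible_tilde N
    refine ⟨fun x => ?_⟩
    obtain ⟨U, hxU, ⟨eU⟩⟩ := h.exists_trivialization x
    exact ⟨U, hxU, ⟨(Scheme.Modules.pullback U.ι).mapIso e.symm ≪≫ eU⟩⟩

end Affine

end

end Fermat.Agent.S25.H445
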